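import Mathlib
import Fermat.Agent.G.Conj.Main
import Fermat.Agent.DS.C.EsTor.Main

/-!
# Program DS, package (C), row C5, leaf Conj/Congr (helper28) : THE KRONECKER CONGRUENCE FOR
FUNCTIONS ON `X₁(M)` (fraction form) FROM THE NORM SERIES IDENTITY

`Γ₁(M)`-analogue of the last step of `G/Conj/Main.lean` (`gcj_norm_congr` from `gcj_norm_series`).

* `DsccjNS M ℓ d` : (NS) the norm series identity with the diamond `⟨d⟩` on the rotated factors,
  `(N_α (β f))(x^ℓ) = f(x^(ℓ·ℓ)) · ∏_{b<ℓ} (⟨d⟩ f)(ζ₀^b x)`  (deliverable of the Conj port);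
* `dsccg_conj_of_ns` : (NS) + Gauss normalisation `DscetGN` ⟹ `DscetConj M ℓ A d φ`
  (the hypothesis of `dsc_es_torsion`).

The diamond does NOT preserve integrality of `q`-expansions at `∞` (it moves the cusp), and the
Puiseux products `∏_b w(ζ^b q^{1/ℓ})` of good `w` need not lie in the function field; the
fraction form avoids both problems: Gauss-normalise `⟨d⟩u = c'⁻¹ w₁/w₂` and `N_α(βu) = c⁻¹ U₁/U₂`,
apply the formal congruence to `w₁`, `w₂` separately, compare over `ℚ̄` through (NS) and conclude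
with the Gauss lemma in `𝔸((q))`.
-/

set_option autoImplicit false
set_option linter.unusedSectionVars false
set_option linter.unusedVariables false
set_option linter.style.haveILetI false
set_option synthInstance.maxHeartbeats 400000

noncomputable section

namespace Fermat.Agent.DS

open ModularCurve AlgebraicCurve IsLocalRing Fermat.Agent.S18 Fermat.Agent.G

local notation "Qb" => AlgebraicClosure ℚ

/-- (NS) THE NORM SERIES IDENTITY FOR `X₁(M)` : for `f ∈ F_ℚ̄(Γ₁(M))`,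
`(N_α (β f))(x^ℓ) = f(x^(ℓ·ℓ)) · ∏_{b<ℓ} (⟨d⟩ f)(ζ₀^b x)` for some primitive `ℓ`-th root of unity
`ζ₀ ∈ ℚ̄`. -/
def DsccjNS (M ℓ : ℕ) [NeZero ℓ] (d : (ZMod M)ˣ) : Prop :=
  ∃ ζ₀ : Qbˣ, IsPrimitiveRoot ζ₀ ℓ ∧
    ∀ f : dscFieldBar M 1,
      qExpand Qb ℓ ((dscHeckeFun M 1 ℓ f : dscFieldBar M 1) : LaurentSeries Qb) =
        qExpand Qb (ℓ * ℓ) (f : LaurentSeries Qb) *
          gcjfProd ℓ ζ₀ ((dscDiamondAut Qb M 1 d f : dscFieldBar M 1) : LaurentSeries Qb)

/-! ### Formal lemmas on `gcjfProd` -/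

section Formal

variable {R : Type*} [CommRing R]

theorem dsccg_rot_C (ζ : Rˣ) (c : R) :
    gcjfRot ζ (HahnSeries.C c : LaurentSeries R) = HahnSeries.C c := by
  ext m
  rw [gcjfRot_coeff]
  by_cases hm : m = 0
  · subst hm
    simp
  · rw [HahnSeries.C_apply, HahnSeries.coeff_single_of_ne hm, mul_zero]

theorem dsccg_prod_mul (ℓ : ℕ) (ζ : Rˣ) (x y : LaurentSeries R) :
    gcjfProd ℓ ζ (x * y) = gcjfProd ℓ ζ x * gcjfProd ℓ ζ y := by
  rw [gcjfProd, gcjfProd, gcjfProd, ← Finset.prod_mul_distrib]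
  exact Finset.prod_congr rfl fun i _ => map_mul _ _ _

theorem dsccg_prod_C (ℓ : ℕ) (ζ : Rˣ) (c : R) :
    gcjfProd ℓ ζ (HahnSeries.C c : LaurentSeries R) = HahnSeries.C (c ^ ℓ) := by
  rw [gcjfProd, Finset.prod_congr rfl fun i _ => dsccg_rot_C (ζ ^ i) c, Finset.prod_const,
    Finset.card_range, ← map_pow]

theorem dsccg_rot_ne_zero (ζ : Rˣ) {x : LaurentSeries R} (hx : x ≠ 0) : gcjfRot ζ x ≠ 0 := by
  intro h0
  apply hx
  ext m
  have h1 := congrArg (fun s : LaurentSeries R => s.coeff m) h0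
  simp only [gcjfRot_coeff, HahnSeries.coeff_zero] at h1
  rw [HahnSeries.coeff_zero]
  exact (Units.mul_right_eq_zero (ζ ^ m)).mp h1

theorem dsccg_prod_ne_zero [IsDomain R] (ℓ : ℕ) (ζ : Rˣ) {x : LaurentSeries R} (hx : x ≠ 0) :
    gcjfProd ℓ ζ x ≠ 0 := by
  rw [gcjfProd]
  exact Finset.prod_ne_zero_iff.mpr fun i _ => dsccg_rot_ne_zero (ζ ^ i) hx

end Formal

/-- the underlying series of a constant of `F_ℚ̄(Γ₁(M))` -/
theorem dsccg_coe_algebraMap (M : ℕ) (c : Qb) :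
    ((algebraMap Qb (dscFieldBar M 1) c : dscFieldBar M 1) : LaurentSeries Qb) =
      HahnSeries.C c :=
  dscet_coe_algebraMap c

/-- (KRON-F for `X₁(M)`) the Kronecker congruence in fraction form, from the norm series. -/
theorem dsccg_conj_of_ns (M : ℕ) {ℓ : ℕ} [Fact ℓ.Prime]
    (A : ValuationSubring Qb) (hA : A.LiesOverPrime ℓ) (d : (ZMod M)ˣ)
    (hNS : haveI : NeZero ℓ := ⟨(Fact.out : ℓ.Prime).ne_zero⟩; DsccjNS M ℓ d)
    (hGN : DscetGN M 1 A)
    (φ : ResidueField A →+* ResidueField A) (hφ : ∀ y, φ y = y ^ ℓ) :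
    haveI : NeZero ℓ := ⟨(Fact.out : ℓ.Prime).ne_zero⟩
    DscetConj M ℓ A d φ := by
  have hℓ0 : ℓ ≠ 0 := (Fact.out : ℓ.Prime).ne_zero
  haveI : NeZero ℓ := ⟨hℓ0⟩
  haveI : CharP (ResidueField A) ℓ := s18ac_charP A hA
  obtain ⟨ζ₀, hζ₀, hNS'⟩ := hNS
  obtain ⟨ζ, hζ, hζmap⟩ := gcjm_exists_unit A hℓ0 ζ₀ hζ₀
  intro u hu hu0
  set f : dscFieldBar M 1 := hu.gen with hfdef
  have hf : f ≠ 0 := hu.gen_ne_zero hu0
  have hū : coeffMap (residue A) u ≠ 0 := fun h => hu0 (Subtype.ext h)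
  have hfcoe : (f : LaurentSeries Qb) = coeffMap A.subtype u := rfl
  have hfcoe0 : (f : LaurentSeries Qb) ≠ 0 := fun h => hf (Subtype.ext h)
  -- the diamond translate and its Gauss normalisation
  set δf : dscFieldBar M 1 := dscDiamondAut Qb M 1 d f with hδfdef
  have hδf : δf ≠ 0 := (map_ne_zero (dscDiamondAut Qb M 1 d)).mpr hf
  have hδfcoe0 : (δf : LaurentSeries Qb) ≠ 0 := fun h => hδf (Subtype.ext h)
  obtain ⟨c', w₁, w₂, hw₁, hw₂, hc', hw₁s, hw₂s, hwg⟩ := hGN δf hδf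
  -- the Hecke translate and its Gauss normalisation
  set Hf : dscFieldBar M 1 := dscHeckeFun M 1 ℓ f with hHfdef
  have hNSf := hNS' f
  have hHf : Hf ≠ 0 := by
    intro h0
    rw [← hHfdef, h0] at hNSf
    have h1 : qExpand Qb ℓ (((0 : dscFieldBar M 1)) : LaurentSeries Qb) = 0 := by
      rw [ZeroMemClass.coe_zero, map_zero]
    rw [h1] at hNSf
    have h2 : qExpand Qb (ℓ * ℓ) (f : LaurentSeries Qb) ≠ 0 := fun h =>
      hfcoe0 (qExpand_injective (R := Qb) (ℓ * ℓ) (by rw [h, map_zero]))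
    exact mul_ne_zero h2 (dsccg_prod_ne_zero ℓ ζ₀ hδfcoe0) hNSf.symm
  obtain ⟨c, U₁, U₂, hU₁, hU₂, hc, hU₁s, hU₂s, hUg⟩ := hGN Hf hHf
  -- reductions
  have hwn₁ : coeffMap (residue A) w₁ ≠ 0 := fun h => hw₁s (Subtype.ext h)
  have hwn₂ : coeffMap (residue A) w₂ ≠ 0 := fun h => hw₂s (Subtype.ext h)
  have hUn₁ : coeffMap (residue A) U₁ ≠ 0 := fun h => hU₁s (Subtype.ext h)
  have hUn₂ : coeffMap (residue A) U₂ ≠ 0 := fun h => hU₂s (Subtype.ext h)
  -- the formal congruences for `w₁`, `w₂`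
  obtain ⟨V₁, hV₁a, hV₁b⟩ := gcjf_exists_congr (residue A) ℓ hζ φ hφ w₁
  obtain ⟨V₂, hV₂a, hV₂b⟩ := gcjf_exists_congr (residue A) ℓ hζ φ hφ w₂
  have hprodQ : ∀ (w V : LaurentSeries A), qExpand A ℓ V = gcjfProd ℓ ζ w →
      qExpand Qb ℓ (coeffMap A.subtype V) = gcjfProd ℓ ζ₀ (coeffMap A.subtype w) := by
    intro w V hV
    rw [← coeffMap_qExpand, hV, gcjfProd, gcjfProd, map_prod]
    refine Finset.prod_congr rfl fun i _ => ?_
    rw [gcjfRot_coeffMap, map_pow, hζmap]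
  have hV₁Q := hprodQ w₁ V₁ hV₁a
  have hV₂Q := hprodQ w₂ V₂ hV₂a
  -- series identities over `ℚ̄`
  have S1 : HahnSeries.C c' * (δf : LaurentSeries Qb) * coeffMap A.subtype w₂ =
      coeffMap A.subtype w₁ := by
    have h0 := congrArg Subtype.val hwg
    rw [MulMemClass.coe_mul, MulMemClass.coe_mul, dsccg_coe_algebraMap] at h0
    exact h0
  have S2 : HahnSeries.C c * (Hf : LaurentSeries Qb) * coeffMap A.subtype U₂ =
      coeffMap A.subtype U₁ := by
    have h0 := congrArg Subtype.val hUg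
    rw [MulMemClass.coe_mul, MulMemClass.coe_mul, dsccg_coe_algebraMap] at h0
    exact h0
  have S3 : HahnSeries.C (c' ^ ℓ) * gcjfProd ℓ ζ₀ (δf : LaurentSeries Qb) *
      qExpand Qb ℓ (coeffMap A.subtype V₂) = qExpand Qb ℓ (coeffMap A.subtype V₁) := by
    rw [hV₁Q, hV₂Q, ← S1, dsccg_prod_mul, dsccg_prod_mul, dsccg_prod_C]
  have S4 : HahnSeries.C (c' ^ ℓ) * (Hf : LaurentSeries Qb) * coeffMap A.subtype V₂ =
      qExpand Qb ℓ (coeffMap A.subtype u) * coeffMap A.subtype V₁ := by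
    apply qExpand_injective (R := Qb) ℓ
    rw [map_mul, map_mul, map_mul, qExpand_C, hNSf, qExpand_qExpand, ← S3, hfcoe]
    ring
  have S5 : HahnSeries.C (c' ^ ℓ / c) * coeffMap A.subtype (U₁ * V₂) =
      coeffMap A.subtype (U₂ * qExpand A ℓ u * V₁) := by
    have hC : (HahnSeries.C c : LaurentSeries Qb) ≠ 0 := getc_C_ne_zero hc
    apply mul_left_cancel₀ hC
    have e1 : (HahnSeries.C c : LaurentSeries Qb) * (HahnSeries.C (c' ^ ℓ / c) *
        coeffMap A.subtype (U₁ * V₂)) =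
        HahnSeries.C (c' ^ ℓ) * coeffMap A.subtype U₁ * coeffMap A.subtype V₂ := by
      rw [← mul_assoc, ← map_mul, mul_div_cancel₀ _ hc, map_mul, mul_assoc]
    rw [e1, ← S2, map_mul, map_mul, coeffMap_qExpand]
    have e2 : HahnSeries.C (c' ^ ℓ) * (HahnSeries.C c * (Hf : LaurentSeries Qb) *
        coeffMap A.subtype U₂) * coeffMap A.subtype V₂ =
        HahnSeries.C c * coeffMap A.subtype U₂ *
          (HahnSeries.C (c' ^ ℓ) * (Hf : LaurentSeries Qb) * coeffMap A.subtype V₂) := by ring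
    rw [e2, S4]
    ring
  -- the Gauss lemma: the constant is a unit of `𝔸`
  have hx : coeffMap (residue A) (U₁ * V₂) ≠ 0 := by
    rw [map_mul, hV₂b]
    exact mul_ne_zero hUn₁ (dscet_coeffMap_ne_zero φ hwn₂)
  have hqū : qExpand (ResidueField A) ℓ (coeffMap (residue A) u) ≠ 0 := fun h =>
    hū (qExpand_injective (R := ResidueField A) ℓ (by rw [h, map_zero]))
  have hy : coeffMap (residue A) (U₂ * qExpand A ℓ u * V₁) ≠ 0 := by
    rw [map_mul, map_mul, coeffMap_qExpand, hV₁b]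
    exact mul_ne_zero (mul_ne_zero hUn₂ hqū) (dscet_coeffMap_ne_zero φ hwn₁)
  obtain ⟨ε, hε⟩ := getc_unit_of_primitive A (c' ^ ℓ / c) (U₁ * V₂) (U₂ * qExpand A ℓ u * V₁)
    hx hy S5
  have hεA : HahnSeries.C (ε : A) * (U₁ * V₂) = U₂ * qExpand A ℓ u * V₁ := by
    apply s18a_coeffMap_subtype_injective
    rw [map_mul, getc_coeffMap_C]
    show HahnSeries.C ((ε : A) : Qb) * _ = _
    rw [hε]
    exact S5
  have hεres : residue A (ε : A) ≠ 0 := by
    intro h0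
    exact ((IsLocalRing.residue_eq_zero_iff (ε : A)).1 h0) ε.isUnit
  -- absorb the unit into `U₁`
  have hU₁' : DscGood M 1 A (HahnSeries.C (ε : A) * U₁) := (DscGood.const (ε : A)).mul hU₁
  have hU₁'gen : hU₁'.gen = algebraMap Qb (dscFieldBar M 1) ((ε : A) : Qb) * hU₁.gen := by
    show ((DscGood.const (M := M) (P := 1) (ε : A)).mul hU₁).gen = _
    rw [DscGood.gen_mul (DscGood.const (M := M) (P := 1) (ε : A)) hU₁, DscGood.gen_const]
  have hε0 : ((ε : A) : Qb) ≠ 0 := by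
    intro h0
    apply hεres
    have : (ε : A) = 0 := Subtype.ext h0
    rw [this, map_zero]
  refine ⟨HahnSeries.C (ε : A) * U₁, U₂, w₁, w₂, hU₁', hU₂, hw₁, hw₂, ((ε : A) : Qb) * c, c',
    mul_ne_zero hε0 hc, hc', ?_, hU₂s, hw₁s, hw₂s, ?_, hwg, ?_⟩
  · intro h0
    have h1 : coeffMap (residue A) (HahnSeries.C (ε : A) * U₁) = 0 := congrArg Subtype.val h0
    rw [map_mul, getc_coeffMap_C] at h1
    exact mul_ne_zero (getc_C_ne_zero hεres) hUn₁ h1
  · rw [hU₁'gen, ← hUg, map_mul]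
    ring
  · have h0 := congrArg (coeffMap (residue A)) hεA
    rw [map_mul, map_mul, map_mul, map_mul, getc_coeffMap_C, coeffMap_qExpand, hV₁b, hV₂b] at h0
    rw [map_mul, getc_coeffMap_C]
    rw [← h0]
    ring

end Fermat.Agent.DS
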