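import Mathlib
import Fermat.Agent.G.Conj.Formal
import Fermat.Agent.G.Conj.Main
import Fermat.Agent.S18.A.Const
import Fermat.Agent.DS.C.HeckeFun
import Fermat.Agent.DS.C.Diamond
import Fermat.Agent.DS.C.GN.Main

/-!
# Program DS, package (C), row C5, leaf Conj : the KRONECKER CONGRUENCE FOR NORMS at level `Γ₁(M)`
(the `Γ₁`-port of `G/Conj/Main.lean`, `gcj_norm_congr`), in FRACTION FORM

For `Γ₁(M)` the `ℓ + 1` conjugates of `u(q^ℓ)` over `F₁(M)` are `u(q^ℓ)` and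
`(⟨ℓ⟩u)(ζ^b q^{1/ℓ})`, `b < ℓ` (`DsccjNormSeries`, proved generically in `Conj/Series.lean`).  The
diamond `⟨ℓ⟩` moves the cusp `∞`, so it does NOT preserve integrality of `q`-expansions, and
`N_α(β u)` need not be an integral series either.  So the congruence is stated for the Gauss normal
forms `c · N_α(β u) · U₂ = U₁`, `c' · ⟨ℓ⟩u · w₂ = w₁` :

  `Ū₁ · w̄₂^φ = Ū₂ · ū(q^ℓ) · w̄₁^φ`          (`φ` = coefficientwise Frobenius).

No Gauss-valuation property of `⟨ℓ⟩` is needed.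
-/

set_option autoImplicit false
set_option linter.unusedSectionVars false
set_option linter.unusedVariables false
set_option linter.style.haveILetI false
set_option synthInstance.maxHeartbeats 400000

noncomputable section

namespace Fermat.Agent.DS

open ModularCurve AlgebraicCurve IsLocalRing Fermat.Agent.S18 Fermat.Agent.G

local notation "Qb" => AlgebraicClosure ℚ

/-- (NS) the norm series identity for `X₁(M)` at `ℓ`, with the twist `θ` (`= ⟨ℓ⟩`):
`(N_α (β f))(x^ℓ) = f(x^(ℓ·ℓ)) · ∏_{b<ℓ} (θ f)(ζ₀^b x)`. -/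
def DsccjNormSeries (M ℓ : ℕ) [NeZero ℓ] (θ : dscFieldBar M 1 →+* dscFieldBar M 1) : Prop :=
  ∃ ζ₀ : Qbˣ, IsPrimitiveRoot ζ₀ ℓ ∧ ∀ f : dscFieldBar M 1,
    qExpand Qb ℓ ((dscHeckeFun M 1 ℓ f : dscFieldBar M 1) : LaurentSeries Qb) =
      qExpand Qb (ℓ * ℓ) (f : LaurentSeries Qb) *
        gcjfProd ℓ ζ₀ ((θ f : dscFieldBar M 1) : LaurentSeries Qb)

section Formal

variable {R : Type*} [CommRing R]

theorem dsccj_rot_C (ζ : Rˣ) (c : R) : gcjfRot ζ (HahnSeries.C c) = HahnSeries.C c := by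
  ext m
  rw [gcjfRot_coeff, HahnSeries.C_apply, HahnSeries.coeff_single]
  split_ifs with h
  · subst h; simp
  · simp

theorem dsccj_prod_C (ℓ : ℕ) (ζ : Rˣ) (c : R) :
    gcjfProd ℓ ζ (HahnSeries.C c) = HahnSeries.C (c ^ ℓ) := by
  rw [gcjfProd, Finset.prod_congr rfl (fun i _ => dsccj_rot_C (ζ ^ i) c), Finset.prod_const,
    Finset.card_range, ← map_pow]

theorem dsccj_prod_mul (ℓ : ℕ) (ζ : Rˣ) (x y : LaurentSeries R) :
    gcjfProd ℓ ζ (x * y) = gcjfProd ℓ ζ x * gcjfProd ℓ ζ y := by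
  rw [gcjfProd, gcjfProd, gcjfProd, ← Finset.prod_mul_distrib]
  exact Finset.prod_congr rfl fun i _ => map_mul _ _ _

theorem dsccj_prod_ne_zero {K : Type*} [Field K] (ℓ : ℕ) (ζ : Kˣ) {x : LaurentSeries K}
    (hx : x ≠ 0) : gcjfProd ℓ ζ x ≠ 0 := by
  rw [gcjfProd, Finset.prod_ne_zero_iff]
  intro i _
  exact (map_ne_zero (gcjfRot (ζ ^ i))).2 hx

end Formal

section Gauss

variable (A : ValuationSubring Qb)

theorem dsccj_up_C (r : A) :
    coeffMap A.subtype (HahnSeries.C r) = HahnSeries.C ((r : A) : Qb) :=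
  coeffMap_single _ _ _

theorem dsccj_red_C (r : A) :
    coeffMap (residue A) (HahnSeries.C r) = HahnSeries.C (residue A r) :=
  coeffMap_single _ _ _

/-- GAUSS LEMMA FOR CONSTANTS: if `a · X = b · Y` with `X`, `Y` integral series with nonzero
reductions, then `b / a` is a unit of `𝔸`. -/
theorem dsccj_unit_of_const_mul_eq (a b : Qb) (ha : a ≠ 0) (hb : b ≠ 0)
    (X Y : LaurentSeries A) (hX : coeffMap (residue A) X ≠ 0) (hY : coeffMap (residue A) Y ≠ 0)
    (h : HahnSeries.C a * coeffMap A.subtype X = HahnSeries.C b * coeffMap A.subtype Y) :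
    ∃ ε : Aˣ, X = HahnSeries.C (ε : A) * Y ∧ (((ε : A) : A) : Qb) = b / a := by
  have hCa : (HahnSeries.C a : LaurentSeries Qb) ≠ 0 := by
    rw [Ne, ← HahnSeries.C_zero]
    exact fun h0 => ha (HahnSeries.C_injective h0)
  have hCb : (HahnSeries.C b : LaurentSeries Qb) ≠ 0 := by
    rw [Ne, ← HahnSeries.C_zero]
    exact fun h0 => hb (HahnSeries.C_injective h0)
  rcases A.mem_or_inv_mem (b / a) with h1 | h1
  · -- `r = b / a ∈ 𝔸`
    set r : A := ⟨b / a, h1⟩ with hr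
    have e1 : coeffMap A.subtype X = coeffMap A.subtype (HahnSeries.C r * Y) := by
      rw [map_mul, dsccj_up_C]
      apply mul_left_cancel₀ hCa
      rw [h, ← mul_assoc, ← map_mul]
      congr 2
      show b = a * (b / a)
      field_simp
    have e2 : X = HahnSeries.C r * Y := dscg_coeffMap_subtype_injective e1
    have hru : IsUnit r := by
      by_contra hnu
      have h0 : residue A r = 0 := (residue_eq_zero_iff r).2 ((mem_maximalIdeal r).2 hnu)
      apply hX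
      rw [e2, map_mul, dsccj_red_C, h0, map_zero, zero_mul]
    exact ⟨hru.unit, e2, rfl⟩
  · -- `r = a / b ∈ 𝔸`
    have h1' : a / b ∈ A := by
      have : (b / a)⁻¹ = a / b := inv_div b a
      rwa [this] at h1
    set r : A := ⟨a / b, h1'⟩ with hr
    have e1 : coeffMap A.subtype (HahnSeries.C r * X) = coeffMap A.subtype Y := by
      rw [map_mul, dsccj_up_C]
      apply mul_left_cancel₀ hCb
      rw [← h, ← mul_assoc, ← map_mul]
      congr 2
      show b * (a / b) = a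
      field_simp
    have e2 : HahnSeries.C r * X = Y := dscg_coeffMap_subtype_injective e1
    have hru : IsUnit r := by
      by_contra hnu
      have h0 : residue A r = 0 := (residue_eq_zero_iff r).2 ((mem_maximalIdeal r).2 hnu)
      apply hY
      rw [← e2, map_mul, dsccj_red_C, h0, map_zero, zero_mul]
    have hinv : ((hru.unit⁻¹ : Aˣ) : A) * r = 1 := IsUnit.val_inv_mul hru
    refine ⟨hru.unit⁻¹, ?_, ?_⟩
    · rw [← e2, ← mul_assoc, ← map_mul, hinv, map_one, one_mul]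
    · have h3 : (((hru.unit⁻¹ : Aˣ) : A) : Qb) * (a / b) = 1 :=
        congrArg (fun z : A => (z : Qb)) hinv
      field_simp at h3 ⊢
      linear_combination h3

end Gauss

section Main

variable (M : ℕ) [NeZero M] {ℓ : ℕ} [Fact ℓ.Prime]
variable (A : ValuationSubring Qb)

/-- the generic fibre of the formal norm `V` of an integral series `w` -/
theorem dsccj_up_formal_norm {ζ : Aˣ} {ζ₀ : Qbˣ}
    (hζmap : Units.map (A.subtype : A →* Qb) ζ = ζ₀) (w V : LaurentSeries A)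
    (hV : haveI : NeZero ℓ := ⟨(Fact.out : ℓ.Prime).ne_zero⟩
      qExpand A ℓ V = gcjfProd ℓ ζ w) :
    haveI : NeZero ℓ := ⟨(Fact.out : ℓ.Prime).ne_zero⟩
    qExpand Qb ℓ (coeffMap A.subtype V) = gcjfProd ℓ ζ₀ (coeffMap A.subtype w) := by
  haveI : NeZero ℓ := ⟨(Fact.out : ℓ.Prime).ne_zero⟩
  rw [← coeffMap_qExpand, hV, gcjfProd, gcjfProd, map_prod]
  refine Finset.prod_congr rfl fun i _ => ?_
  rw [gcjfRot_coeffMap, map_pow, hζmap]

set_option maxHeartbeats 1600000 in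
/-- (KRON-F, `Γ₁`) KRONECKER CONGRUENCE FOR FUNCTIONS in fraction form: for a good integral `u` of
level `(M, 1)` (`ℓ ∤ M`) with `ū ≠ 0`, Gauss normal forms `c · N_α(β u) · U₂ = U₁`,
`c' · θ u · w₂ = w₁` can be chosen with `Ū₁ · w̄₂^φ = Ū₂ · ū(q^ℓ) · w̄₁^φ`, `φ` = coefficientwise
Frobenius of `k`; `θ` = the twist of the norm series (`= ⟨ℓ⟩`). -/
theorem dsccj_norm_congr_of_series (hM : 6 ≤ M) (hℓM : ¬ ℓ ∣ M)
    (θ : dscFieldBar M 1 →+* dscFieldBar M 1)
    (hNS : haveI : NeZero ℓ := ⟨(Fact.out : ℓ.Prime).ne_zero⟩; DsccjNormSeries M ℓ θ)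
    (hA : A.LiesOverPrime ℓ)
    (φ : ResidueField A →+* ResidueField A) (hφ : ∀ x, φ x = x ^ ℓ)
    (u : LaurentSeries A) (hu : DscGood M 1 A u) (hu0 : hu.spec ≠ 0) :
    haveI : NeZero ℓ := ⟨(Fact.out : ℓ.Prime).ne_zero⟩
    ∃ (U₁ U₂ w₁ w₂ : LaurentSeries A) (hU₁ : DscGood M 1 A U₁) (hU₂ : DscGood M 1 A U₂)
      (hw₁ : DscGood M 1 A w₁) (hw₂ : DscGood M 1 A w₂) (c c' : Qb),
      c ≠ 0 ∧ c' ≠ 0 ∧ hU₁.spec ≠ 0 ∧ hU₂.spec ≠ 0 ∧ hw₁.spec ≠ 0 ∧ hw₂.spec ≠ 0 ∧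
      algebraMap Qb (dscFieldBar M 1) c * dscHeckeFun M 1 ℓ hu.gen * hU₂.gen = hU₁.gen ∧
      algebraMap Qb (dscFieldBar M 1) c' * θ hu.gen * hw₂.gen = hw₁.gen ∧
      coeffMap (residue A) U₁ * coeffMap φ (coeffMap (residue A) w₂) =
        coeffMap (residue A) U₂ * qExpand (ResidueField A) ℓ (coeffMap (residue A) u) *
          coeffMap φ (coeffMap (residue A) w₁) := by
  have hℓ0 : ℓ ≠ 0 := (Fact.out : ℓ.Prime).ne_zero
  haveI : NeZero ℓ := ⟨hℓ0⟩
  obtain ⟨ζ₀, hζ₀, hNS⟩ := hNS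
  obtain ⟨ζ, hζ, hζmap⟩ := gcjm_exists_unit A hℓ0 ζ₀ hζ₀
  haveI : CharP (ResidueField A) ℓ := s18ac_charP A hA
  have hf0 : hu.gen ≠ 0 := hu.gen_ne_zero hu0
  have hθf0 : θ hu.gen ≠ 0 := (map_ne_zero θ).2 hf0
  have hfs0 : ((hu.gen : dscFieldBar M 1) : LaurentSeries Qb) ≠ 0 := fun h => hf0 (Subtype.ext h)
  have hθfs0 : ((θ hu.gen : dscFieldBar M 1) : LaurentSeries Qb) ≠ 0 :=
    fun h => hθf0 (Subtype.ext h)
  -- the Hecke norm is nonzero
  have hT0 : dscHeckeFun M 1 ℓ hu.gen ≠ 0 := by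
    intro h0
    have h1 := hNS hu.gen
    rw [h0] at h1
    have h2 : qExpand Qb ℓ (((0 : dscFieldBar M 1) : dscFieldBar M 1) : LaurentSeries Qb) = 0 :=
      map_zero _
    rw [h2] at h1
    have h3 : qExpand Qb (ℓ * ℓ) ((hu.gen : dscFieldBar M 1) : LaurentSeries Qb) ≠ 0 :=
      fun h => hfs0 (qExpand_injective (ℓ * ℓ) (by rw [h, map_zero]))
    exact mul_ne_zero h3 (dsccj_prod_ne_zero ℓ ζ₀ hθfs0) h1.symm
  -- Gauss normal forms
  obtain ⟨c, U₁, U₂, hU₁, hU₂, hc, hU₁s, hU₂s, hcT⟩ := dscgn_normal M A hM hℓM hA _ hT0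
  obtain ⟨c', w₁, w₂, hw₁, hw₂, hc', hw₁s, hw₂s, hcθ⟩ := dscgn_normal M A hM hℓM hA _ hθf0
  -- the formal norms
  obtain ⟨V₁, hV₁q, hV₁r⟩ := gcjf_exists_congr (residue A) ℓ hζ φ hφ w₁
  obtain ⟨V₂, hV₂q, hV₂r⟩ := gcjf_exists_congr (residue A) ℓ hζ φ hφ w₂
  have hV₁up := dsccj_up_formal_norm A hζmap w₁ V₁ hV₁q
  have hV₂up := dsccj_up_formal_norm A hζmap w₂ V₂ hV₂q
  -- the two normal forms as identities of series
  have hcT' : HahnSeries.C c *
      ((dscHeckeFun M 1 ℓ hu.gen : dscFieldBar M 1) : LaurentSeries Qb) * coeffMap A.subtype U₂ =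
      coeffMap A.subtype U₁ := by
    have := congrArg (fun z : dscFieldBar M 1 => (z : LaurentSeries Qb)) hcT
    simpa [HahnSeries.C_apply, algebraMap_laurentSeries_eq_single] using this
  have hcθ' : HahnSeries.C c' * ((θ hu.gen : dscFieldBar M 1) : LaurentSeries Qb) *
      coeffMap A.subtype w₂ = coeffMap A.subtype w₁ := by
    have := congrArg (fun z : dscFieldBar M 1 => (z : LaurentSeries Qb)) hcθ
    simpa [HahnSeries.C_apply, algebraMap_laurentSeries_eq_single] using this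
  -- apply the formal norm to the second one
  have h2 : HahnSeries.C (c' ^ ℓ) *
      gcjfProd ℓ ζ₀ ((θ hu.gen : dscFieldBar M 1) : LaurentSeries Qb) *
        qExpand Qb ℓ (coeffMap A.subtype V₂) = qExpand Qb ℓ (coeffMap A.subtype V₁) := by
    rw [hV₁up, hV₂up, ← hcθ', dsccj_prod_mul, dsccj_prod_mul, dsccj_prod_C]
  -- apply `q ↦ q^ℓ` to the first one
  have hqC : ∀ a : Qb, qExpand Qb ℓ (HahnSeries.C a) = HahnSeries.C a := fun a => by
    rw [HahnSeries.C_apply, qExpand_single, mul_zero]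
  have h1 : HahnSeries.C c *
      qExpand Qb ℓ ((dscHeckeFun M 1 ℓ hu.gen : dscFieldBar M 1) : LaurentSeries Qb) *
        qExpand Qb ℓ (coeffMap A.subtype U₂) = qExpand Qb ℓ (coeffMap A.subtype U₁) := by
    rw [← hcT', map_mul, map_mul, hqC]
  have h3 := hNS hu.gen
  have hu_up : ((hu.gen : dscFieldBar M 1) : LaurentSeries Qb) = coeffMap A.subtype u := rfl
  -- the identity of series over `ℚ̄`
  have key : HahnSeries.C (c' ^ ℓ) * coeffMap A.subtype (U₁ * V₂) =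
      HahnSeries.C c * coeffMap A.subtype (qExpand A ℓ u * V₁ * U₂) := by
    apply qExpand_injective (R := Qb) ℓ
    simp only [map_mul]
    rw [hqC, hqC, ← h1, ← h2, h3, coeffMap_qExpand, qExpand_qExpand, hu_up]
    ring
  -- nonvanishing of the reductions
  have hub : coeffMap (residue A) u ≠ 0 := fun h => hu0 (Subtype.ext h)
  have hU1b : coeffMap (residue A) U₁ ≠ 0 := fun h => hU₁s (Subtype.ext h)
  have hU2b : coeffMap (residue A) U₂ ≠ 0 := fun h => hU₂s (Subtype.ext h)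
  have hw1b : coeffMap (residue A) w₁ ≠ 0 := fun h => hw₁s (Subtype.ext h)
  have hw2b : coeffMap (residue A) w₂ ≠ 0 := fun h => hw₂s (Subtype.ext h)
  have hφne : ∀ w : LaurentSeries (ResidueField A), w ≠ 0 → coeffMap φ w ≠ 0 := by
    intro w hw h
    apply hw
    ext k
    have h1 := congrArg (fun z => z.coeff k) h
    simp only [coeffMap_coeff, HahnSeries.coeff_zero] at h1
    exact (map_eq_zero φ).1 h1
  have hqub : qExpand (ResidueField A) ℓ (coeffMap (residue A) u) ≠ 0 :=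
    fun h => hub (qExpand_injective ℓ (by rw [h, map_zero]))
  have hX : coeffMap (residue A) (U₁ * V₂) ≠ 0 := by
    rw [map_mul, hV₂r]
    exact mul_ne_zero hU1b (hφne _ hw2b)
  have hY : coeffMap (residue A) (qExpand A ℓ u * V₁ * U₂) ≠ 0 := by
    rw [map_mul, map_mul, hV₁r, coeffMap_qExpand]
    exact mul_ne_zero (mul_ne_zero hqub (hφne _ hw1b)) hU2b
  -- the constant `c / c'^ℓ` is a unit
  obtain ⟨ε, hε, hεc⟩ := dsccj_unit_of_const_mul_eq A (c' ^ ℓ) c (pow_ne_zero _ hc') hc _ _ hX hY key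
  -- the new denominator
  have hU₂' : DscGood M 1 A (HahnSeries.C (ε : A) * U₂) := (DscGood.const (ε : A)).mul hU₂
  have hεres : residue A (ε : A) ≠ 0 := by
    rw [Ne, residue_eq_zero_iff, mem_maximalIdeal, mem_nonunits_iff, not_not]
    exact ε.isUnit
  have hCε : (HahnSeries.C (residue A (ε : A)) : LaurentSeries (ResidueField A)) ≠ 0 := by
    rw [Ne, ← HahnSeries.C_zero]
    exact fun h0 => hεres (HahnSeries.C_injective h0)
  refine ⟨U₁, HahnSeries.C (ε : A) * U₂, w₁, w₂, hU₁, hU₂', hw₁, hw₂, c' ^ ℓ, c',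
    pow_ne_zero _ hc', hc', hU₁s, ?_, hw₁s, hw₂s, ?_, hcθ, ?_⟩
  · intro h
    have h' : coeffMap (residue A) (HahnSeries.C (ε : A) * U₂) = 0 := congrArg Subtype.val h
    rw [map_mul, dsccj_red_C] at h'
    exact mul_ne_zero hCε hU2b h'
  · rw [DscGood.gen_mul (DscGood.const (ε : A)) hU₂, DscGood.gen_const, ← hcT]
    have hcc : c = c' ^ ℓ * (((ε : A) : A) : Qb) := by
      rw [hεc]
      field_simp
    rw [hcc, map_mul]
    ring
  · have h4 := congrArg (coeffMap (residue A)) hε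
    rw [map_mul, map_mul, map_mul, map_mul, hV₁r, hV₂r, coeffMap_qExpand, dsccj_red_C] at h4
    rw [map_mul, dsccj_red_C, h4]
    ring

/-- the diamond automorphism `⟨d⟩` of `F_ℚ̄(M, 1)` as a ring endomorphism -/
def dsccjDiamondHom (d : (ZMod M)ˣ) : dscFieldBar M 1 →+* dscFieldBar M 1 :=
  (dscDiamondAut Qb M 1 d).toRingEquiv.toRingHom

@[simp] theorem dsccjDiamondHom_apply (d : (ZMod M)ˣ) (f : dscFieldBar M 1) :
    dsccjDiamondHom M d f = dscDiamondAut Qb M 1 d f := rfl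

/-- (KRON-F, `Γ₁`) the Kronecker congruence in fraction form with `θ = ⟨d⟩`, `d ≡ ℓ`. -/
theorem dsccj_norm_congr (hM : 6 ≤ M) (hℓM : ¬ ℓ ∣ M) (d : (ZMod M)ˣ)
    (hNS : haveI : NeZero ℓ := ⟨(Fact.out : ℓ.Prime).ne_zero⟩
      DsccjNormSeries M ℓ (dsccjDiamondHom M d))
    (hA : A.LiesOverPrime ℓ)
    (φ : ResidueField A →+* ResidueField A) (hφ : ∀ x, φ x = x ^ ℓ)
    (u : LaurentSeries A) (hu : DscGood M 1 A u) (hu0 : hu.spec ≠ 0) :
    haveI : NeZero ℓ := ⟨(Fact.out : ℓ.Prime).ne_zero⟩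
    ∃ (U₁ U₂ w₁ w₂ : LaurentSeries A) (hU₁ : DscGood M 1 A U₁) (hU₂ : DscGood M 1 A U₂)
      (hw₁ : DscGood M 1 A w₁) (hw₂ : DscGood M 1 A w₂) (c c' : Qb),
      c ≠ 0 ∧ c' ≠ 0 ∧ hU₁.spec ≠ 0 ∧ hU₂.spec ≠ 0 ∧ hw₁.spec ≠ 0 ∧ hw₂.spec ≠ 0 ∧
      algebraMap Qb (dscFieldBar M 1) c * dscHeckeFun M 1 ℓ hu.gen * hU₂.gen = hU₁.gen ∧
      algebraMap Qb (dscFieldBar M 1) c' * dscDiamondAut Qb M 1 d hu.gen * hw₂.gen = hw₁.gen ∧
      coeffMap (residue A) U₁ * coeffMap φ (coeffMap (residue A) w₂) =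
        coeffMap (residue A) U₂ * qExpand (ResidueField A) ℓ (coeffMap (residue A) u) *
          coeffMap φ (coeffMap (residue A) w₁) :=
  dsccj_norm_congr_of_series M A hM hℓM (dsccjDiamondHom M d) hNS hA φ hφ u hu hu0

end Main

end Fermat.Agent.DS
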