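import Mathlib
import Fermat.Agent.G.Conj.Formal
import Fermat.Agent.G.Conj.Deg
import Fermat.Agent.S23.UNStab
import Fermat.Agent.S24.Bridge
import Fermat.Agent.DS.C.Lv.Degree
import Fermat.Prelude.Thm_ModularCurve_coeffMap_qExpand

/-!
# Program DS, package (C), row C5, leaf Conj : (NS) the norm series identity, GENERICALLY

Generic port of `G/Conj/{Hol,Exp,Series}.lean` to a PAIR of level data `L₁`, `L₂ : DscLevel K ι`
(helper17's `DS/C/Lv`): `L₁` = the base level (`X₁(M)`), `L₂` = the level with an additional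
`Γ₀(ℓ)`-structure; `α` = inclusion, `β = (q ↦ q^ℓ)`.  With representatives `ξ_b ∈ L₁.Γ` of the
nontrivial cosets, `diag(ℓ,1) ξ_b⁻¹ = γ' (1 b; 0 ℓ)`, where `γ'` NORMALISES `L₁.Γ` and acts on
`L₁.F` through the ring endomorphism `θ` (`θ = ⟨ℓ⟩` for `Γ₁(M)`, `θ = id` for `Γ₀(N)`):

  `(N_α (β f))(x^ℓ) = f(x^(ℓ·ℓ)) · ∏_{b<ℓ} (θ f)(ζ₀^b x)`.
-/

set_option autoImplicit false
set_option linter.unusedSectionVars false
set_option linter.unusedVariables false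
set_option linter.style.haveILetI false
set_option synthInstance.maxHeartbeats 400000

noncomputable section

namespace Fermat.Agent.DS

open ModularCurve AlgebraicCurve Fermat.Agent.S24 Fermat.Agent.G UpperHalfPlane IntermediateField
open scoped MatrixGroups Real

variable {K : Type} [Field K] [Algebra ℚ K] {ι : K →+* ℂ}

/-- ring homs out of `L.F` are determined on `L.R` -/
theorem dsccj_hom_ext (L : DscLevel K ι) {P : Type*} [CommRing P] (j k : L.F →+* P)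
    (h : ∀ x : L.R, j (x : L.F) = k (x : L.F)) : j = k := by
  haveI := L.frac
  exact IsLocalization.ringHom_ext (nonZeroDivisors L.R) (RingHom.ext h)

/-- elements of two level data with the same expansion are the same holomorphic function -/
theorem dsccj_toHol_eq (L₁ L₂ : DscLevel K ι) (x : L₁.R) (y : L₂.R)
    (h : ((y : L₂.F) : LaurentSeries K) = ((x : L₁.F) : LaurentSeries K)) :
    L₂.toHol y = L₁.toHol x :=
  bridge_hol_ext (L₂.hasCuspExp y) (by rw [h]; exact L₁.hasCuspExp x)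

section Scale

variable (L : DscLevel K ι) (ℓ : ℕ) [NeZero ℓ]

/-- the holomorphic function `τ ↦ x(ℓ τ)` -/
def dsccjScale (x : L.R) : HolRing :=
  HolRing.compGL (Fermat.Agent.S23.utGL ℓ 0 1)
    (Fermat.Agent.S23.det_utGL_pos (NeZero.ne ℓ) one_ne_zero 0) (L.toHol x)

theorem dsccjScale_apply (x : L.R) (τ : ℍ) :
    (dsccjScale L ℓ x : ℍ → ℂ) τ = (L.toHol x : ℍ → ℂ) (Fermat.Agent.S23.utGL ℓ 0 1 • τ) := rfl

/-- `x(ℓ τ)` has the expansion `x(q^ℓ)` -/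
theorem dsccj_hasCuspExp_scale (x : L.R) :
    HasCuspExp 1 (dsccjScale L ℓ x : ℍ → ℂ)
      (qExpand ℂ ℓ (coeffMap ι ((x : L.F) : LaurentSeries K))) := by
  have h := HasCuspExp.comp_affine (a := ℓ) (d := 1) (NeZero.ne ℓ) one_ne_zero 0
    (Fermat.Agent.S23.utGL ℓ 0 1)
    (fun τ => Fermat.Agent.S23.coe_utGL_smul (NeZero.ne ℓ) one_ne_zero 0 τ)
    (L.hasCuspExp x) 1 (by simp)
  rw [bridge_rotLaurent_one] at h
  exact h

end Scale

/-- `β x` is the holomorphic function `τ ↦ x(ℓ τ)` -/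
theorem dsccj_toHol_beta (L₁ L₂ : DscLevel K ι) (ℓ : ℕ) [NeZero ℓ] (x : L₁.R) (y : L₂.R)
    (h : ((y : L₂.F) : LaurentSeries K) = qExpand K ℓ ((x : L₁.F) : LaurentSeries K)) :
    L₂.toHol y = dsccjScale L₁ ℓ x := by
  refine bridge_hol_ext (L₂.hasCuspExp y) ?_
  rw [h, ModularCurve.coeffMap_qExpand]
  exact dsccj_hasCuspExp_scale L₁ ℓ x

/-- the rotation over `ℂ` of the image of a series over `K` -/
theorem dsccj_rotLaurent_coeffMap (ζ : Kˣ) (ζc : ℂˣ) (h : (ζc : ℂ) = ι (ζ : K))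
    (S : LaurentSeries K) :
    rotLaurent ζc (coeffMap ι S) = coeffMap ι (gcjfRot ζ S) := by
  ext m
  rw [rotLaurent_coeff, coeffMap_coeff, coeffMap_coeff, gcjfRot_coeff, map_mul, h]
  congr 1
  rw [Units.val_zpow_eq_zpow_val, map_zpow₀]

section Exp

variable (L₁ L₂ : DscLevel K ι) (ℓ : ℕ) [NeZero ℓ]

/-- (L3a) for `ξ ∈ L₁.Γ` the conjugate `ξ • (α x)` is `x` itself: expansion `x(s^h₂)`. -/
theorem dsccj_cuspHom_alpha (ξ : SL(2, ℤ)) (hξ : ξ ∈ L₁.Γ) (x : L₁.R) (y : L₂.R)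
    (h : ((y : L₂.F) : LaurentSeries K) = ((x : L₁.F) : LaurentSeries K)) :
    dsclCuspHom L₂ ξ y = qExpand K L₂.h ((x : L₁.F) : LaurentSeries K) := by
  apply dscl_cuspHom_eq
  rw [dsccj_toHol_eq L₁ L₂ x y h, L₁.inv ξ hξ x, ModularCurve.coeffMap_qExpand]
  have h' := (L₁.hasCuspExp x).qExpand L₂.h
  rwa [one_mul] at h'

/-- (L3b) the trivial conjugate of `β x`: expansion `x(s^(h₂ ℓ))`. -/
theorem dsccj_cuspHom_beta_one (x : L₁.R) (y : L₂.R)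
    (h : ((y : L₂.F) : LaurentSeries K) = qExpand K ℓ ((x : L₁.F) : LaurentSeries K)) :
    dsclCuspHom L₂ 1 y = qExpand K (L₂.h * ℓ) ((x : L₁.F) : LaurentSeries K) := by
  apply dscl_cuspHom_eq
  rw [one_smul, dsccj_toHol_beta L₁ L₂ ℓ x y h, ModularCurve.coeffMap_qExpand]
  have h2 := (dsccj_hasCuspExp_scale L₁ ℓ x).qExpand L₂.h
  rw [one_mul, qExpand_qExpand] at h2
  exact h2

/-- (L3c) the nontrivial conjugates of `β x`: if `diag(ℓ,1) ξ⁻¹ = γ' (1 b; 0 ℓ)` and `γ'` acts on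
`x` through `x'` (`γ'⁻¹ • x = x'`), then `(ξ • β x)(τ) = x'((τ + b)/ℓ)`, with expansion
`x'(ζ₀^b s^m)`, `h₂ = ℓ m`. -/
theorem dsccj_cuspHom_beta (m : ℕ) [NeZero m] (hh : L₂.h = ℓ * m) (ζ₀ : Kˣ)
    (hζ₀ : ι (ζ₀ : K) = Complex.exp (2 * π * Complex.I / ℓ))
    (ξ γ' : SL(2, ℤ)) (b : ℕ)
    (hmat : Fermat.Agent.S23.utGL ℓ 0 1 * Matrix.SpecialLinearGroup.mapGL ℝ ξ⁻¹ =
      Matrix.SpecialLinearGroup.mapGL ℝ γ' * Fermat.Agent.S23.utGL 1 (b : ℤ) ℓ)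
    (x x' : L₁.R) (hx' : γ'⁻¹ • L₁.toHol x = L₁.toHol x') (y : L₂.R)
    (h : ((y : L₂.F) : LaurentSeries K) = qExpand K ℓ ((x : L₁.F) : LaurentSeries K)) :
    dsclCuspHom L₂ ξ y =
      qExpand K m (gcjfRot (ζ₀ ^ b) ((x' : L₁.F) : LaurentSeries K)) := by
  apply dscl_cuspHom_eq
  rw [ModularCurve.coeffMap_qExpand]
  have hfun : ((ξ • L₂.toHol y : HolRing) : ℍ → ℂ) =
      fun τ => (L₁.toHol x' : ℍ → ℂ) (Fermat.Agent.S23.utGL 1 (b : ℤ) ℓ • τ) := by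
    funext τ
    rw [HolRing.smul_apply, dsccj_toHol_beta L₁ L₂ ℓ x y h, dsccjScale_apply]
    have e1 : (Fermat.Agent.S23.utGL ℓ 0 1 • (ξ⁻¹ • τ) : ℍ) =
        (Fermat.Agent.S23.utGL ℓ 0 1 * Matrix.SpecialLinearGroup.mapGL ℝ ξ⁻¹) • τ := by
      rw [mul_smul]
      rfl
    rw [e1, hmat, mul_smul]
    have e2 : ((L₁.toHol x : HolRing) : ℍ → ℂ)
        ((Matrix.SpecialLinearGroup.mapGL ℝ γ' : GL (Fin 2) ℝ) •
          (Fermat.Agent.S23.utGL 1 (b : ℤ) ℓ • τ)) =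
        ((γ'⁻¹ • L₁.toHol x : HolRing) : ℍ → ℂ) (Fermat.Agent.S23.utGL 1 (b : ℤ) ℓ • τ) := by
      rw [HolRing.inv_smul_apply]
      rfl
    rw [e2, hx']
  rw [hfun]
  have hg' : ∀ τ : ℍ, ((Fermat.Agent.S23.utGL 1 (b : ℤ) ℓ • τ : ℍ) : ℂ) =
      (((1 : ℕ) : ℂ) * τ + (((b : ℤ)) : ℂ)) / ((ℓ : ℕ) : ℂ) := fun τ => by
    rw [Fermat.Agent.S23.coe_utGL_smul one_ne_zero (NeZero.ne ℓ)]
  have hζc : (ι ((ζ₀ ^ b : Kˣ) : K)) ≠ 0 := by
    rw [map_ne_zero]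
    exact Units.ne_zero _
  have h1 := HasCuspExp.comp_affine one_ne_zero (NeZero.ne ℓ) (b : ℤ)
    (Fermat.Agent.S23.utGL 1 (b : ℤ) ℓ) hg'
    (L₁.hasCuspExp x') (Units.mk0 _ hζc) (by
      rw [Units.val_mk0, Units.val_pow_eq_pow_val, map_pow, hζ₀, ← Complex.exp_nat_mul]
      congr 1
      push_cast
      ring)
  rw [qExpand_one_apply, dsccj_rotLaurent_coeffMap (ζ₀ ^ b) _ (Units.val_mk0 _)] at h1
  have h2 := h1.qExpand m
  rw [hh]
  exact h2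

end Exp

section Norm

variable [IsAlgClosed K] (L₁ L₂ : DscLevel K ι) {ℓ : ℕ} [NeZero ℓ]

/-- the `K`-embedding `F₁ → K((q))` -/
def dsccjVal (L : DscLevel K ι) : L.F →+* LaurentSeries K := L.F.val.toRingHom

theorem dsccjVal_apply (L : DscLevel K ι) (f : L.F) : dsccjVal L f = (f : LaurentSeries K) := rfl

variable (α β : L₁.F →ₐ[K] L₂.F)
  (hα : ∀ f : L₁.F, ((α f : L₂.F) : LaurentSeries K) = (f : LaurentSeries K))
  (hβ : ∀ f : L₁.F, ((β f : L₂.F) : LaurentSeries K) = qExpand K ℓ (f : LaurentSeries K))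
  (hαR : ∀ x : L₁.R, α (x : L₁.F) ∈ L₂.R)
  (hβR : ∀ x : L₁.R, β (x : L₁.F) ∈ L₂.R)

include hα hαR in
/-- (A1) for `ξ ∈ L₁.Γ`: `σ_ξ ∘ α = qExpand h₂` -/
theorem dsccj_degLift_alpha (ξ : SL(2, ℤ)) (hξ : ξ ∈ L₁.Γ) (f : L₁.F) :
    dsclDegLift L₂ ξ (α f) = qExpand K L₂.h (f : LaurentSeries K) := by
  have h := dsccj_hom_ext L₁
    ((dsclDegLift L₂ ξ).comp α.toRingHom)
    ((qExpand K L₂.h).comp (dsccjVal L₁)) (fun x => by
      show dsclDegLift L₂ ξ (α (x : L₁.F)) = _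
      have h1 := dsclDegLift_coe L₂ ξ ⟨_, hαR x⟩
      rw [h1]
      exact dsccj_cuspHom_alpha L₁ L₂ ξ hξ x ⟨_, hαR x⟩ (hα _))
  exact RingHom.congr_fun h f

include hβ hβR in
/-- (A2) `σ_1 ∘ β = qExpand (h₂ ℓ)` -/
theorem dsccj_degLift_beta_one (f : L₁.F) :
    dsclDegLift L₂ 1 (β f) = qExpand K (L₂.h * ℓ) (f : LaurentSeries K) := by
  have h := dsccj_hom_ext L₁
    ((dsclDegLift L₂ 1).comp β.toRingHom)
    ((qExpand K (L₂.h * ℓ)).comp (dsccjVal L₁)) (fun x => by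
      show dsclDegLift L₂ 1 (β (x : L₁.F)) = _
      have h1 := dsclDegLift_coe L₂ 1 ⟨_, hβR x⟩
      rw [h1]
      exact dsccj_cuspHom_beta_one L₁ L₂ ℓ x ⟨_, hβR x⟩ (hβ _))
  exact RingHom.congr_fun h f

include hβ hβR in
/-- (A3) `σ_ξ ∘ β = qExpand m ∘ rot (ζ₀^b) ∘ θ` -/
theorem dsccj_degLift_beta (m : ℕ) [NeZero m] (hh : L₂.h = ℓ * m) (ζ₀ : Kˣ)
    (hζ₀ : ι (ζ₀ : K) = Complex.exp (2 * π * Complex.I / ℓ))
    (ξ γ' : SL(2, ℤ)) (b : ℕ)
    (hmat : Fermat.Agent.S23.utGL ℓ 0 1 * Matrix.SpecialLinearGroup.mapGL ℝ ξ⁻¹ =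
      Matrix.SpecialLinearGroup.mapGL ℝ γ' * Fermat.Agent.S23.utGL 1 (b : ℤ) ℓ)
    (θ : L₁.F →+* L₁.F)
    (hθ : ∀ x : L₁.R, ∃ y : L₁.R, (y : L₁.F) = θ (x : L₁.F) ∧
      γ'⁻¹ • L₁.toHol x = L₁.toHol y)
    (f : L₁.F) :
    dsclDegLift L₂ ξ (β f) =
      qExpand K m (gcjfRot (ζ₀ ^ b) ((θ f : L₁.F) : LaurentSeries K)) := by
  have h := dsccj_hom_ext L₁
    ((dsclDegLift L₂ ξ).comp β.toRingHom)
    ((((qExpand K m).comp (gcjfRot (ζ₀ ^ b))).comp (dsccjVal L₁)).comp θ) (fun x => by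
      show dsclDegLift L₂ ξ (β (x : L₁.F)) = _
      have h1 := dsclDegLift_coe L₂ ξ ⟨_, hβR x⟩
      rw [h1]
      obtain ⟨x', hx'1, hx'2⟩ := hθ x
      have h2 := dsccj_cuspHom_beta L₁ L₂ ℓ m hh ζ₀ hζ₀ ξ γ' b hmat x x' hx'2 ⟨_, hβR x⟩ (hβ _)
      rw [h2, hx'1]
      rfl)
  exact RingHom.congr_fun h f

/-- distinct cosets give distinct extended expansions -/
theorem dsccj_mem_of_degLift_eq (L : DscLevel K ι) (g g' : SL(2, ℤ))
    (h : dsclDegLift L g = dsclDegLift L g') : g⁻¹ * g' ∈ L.Γ := by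
  apply dscl_mem_of_cuspHom_eq
  ext x : 1
  rw [← dsclDegLift_coe, ← dsclDegLift_coe, h]

include hα in
theorem dsccj_alpha_jF : α L₁.jF = L₂.jF :=
  Subtype.ext (by rw [hα, L₁.coe_jF, L₂.coe_jF])

set_option maxHeartbeats 1600000 in
include hα hαR in
/-- (DEG) `[F₂ : F₁] = ℓ + 1` along `α`, from `ℓ + 1` distinct conjugates and the index bound. -/
theorem dsccj_finrank
    (ξ : ℕ → SL(2, ℤ)) (hξ : ∀ b, ξ b ∈ L₁.Γ)
    (hξnot : ∀ b, ξ b ∉ L₂.Γ)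
    (hξdvd : ∀ b b' : ℕ, (ξ b)⁻¹ * ξ b' ∈ L₂.Γ → (ℓ : ℤ) ∣ (b : ℤ) - b')
    (hidx : Nat.card (SL(2, ℤ) ⧸ L₂.Γ) ≤ Nat.card (SL(2, ℤ) ⧸ L₁.Γ) * (ℓ + 1)) :
    letI := algebraAlong α
    Module.finrank L₁.F L₂.F = ℓ + 1 := by
  classical
  letI algKL : Algebra L₁.F L₂.F := algebraAlong α
  letI algKΩ : Algebra L₁.F (LaurentSeries K) :=
    ((qExpand K L₂.h).comp (dsccjVal L₁)).toAlgebra
  have htower := gcjd_finrank_tower α L₁.jF L₂.jF (dsccj_alpha_jF L₁ L₂ α hα)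
  rw [dscl_finrank_jF L₁, dscl_finrank_jF L₂] at htower
  have hpos₁ : 0 < Nat.card (SL(2, ℤ) ⧸ L₁.Γ) := Nat.card_pos
  have hpos₂ : 0 < Nat.card (SL(2, ℤ) ⧸ L₂.Γ) := Nat.card_pos
  have hfr_pos : 0 < Module.finrank L₁.F L₂.F := by
    rcases Nat.eq_zero_or_pos (Module.finrank L₁.F L₂.F) with h0 | h0
    · rw [h0, mul_zero] at htower
      omega
    · exact h0
  haveI : FiniteDimensional L₁.F L₂.F := Module.finite_of_finrank_pos hfr_pos
  have hle : Module.finrank L₁.F L₂.F ≤ ℓ + 1 := by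
    have h1 : Nat.card (SL(2, ℤ) ⧸ L₁.Γ) * Module.finrank L₁.F L₂.F ≤
        Nat.card (SL(2, ℤ) ⧸ L₁.Γ) * (ℓ + 1) := by
      rw [htower]
      exact hidx
    exact Nat.le_of_mul_le_mul_left h1 hpos₁
  -- the lower bound: `ℓ + 1` distinct embeddings
  let r : Option (Fin ℓ) → SL(2, ℤ) := fun i => i.elim 1 (fun b => ξ b)
  have hr : ∀ i, r i ∈ L₁.Γ := by
    intro i
    cases i with
    | none => exact one_mem _
    | some b => exact hξ b
  let σ : Option (Fin ℓ) → (L₂.F →ₐ[L₁.F] LaurentSeries K) := fun i =>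
    { dsclDegLift L₂ (r i) with
      commutes' := fun f => dsccj_degLift_alpha L₁ L₂ α hα hαR (r i) (hr i) f }
  have hσ : ∀ i y, σ i y = dsclDegLift L₂ (r i) y := fun i y => rfl
  have hinj : Function.Injective σ := by
    intro i j hij
    have h1 : dsclDegLift L₂ (r i) = dsclDegLift L₂ (r j) := by
      ext y : 1
      rw [← hσ, ← hσ, hij]
    have h2 := dsccj_mem_of_degLift_eq L₂ _ _ h1
    cases i with
    | none =>
      cases j with
      | none => rfl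
      | some b =>
        exfalso
        apply hξnot b
        simpa [r] using h2
    | some b =>
      cases j with
      | none =>
        exfalso
        apply hξnot b
        have h3 : (ξ b)⁻¹ ∈ L₂.Γ := by simpa [r] using h2
        simpa using inv_mem h3
      | some b' =>
        have h3 : (ℓ : ℤ) ∣ ((b : ℕ) : ℤ) - ((b' : ℕ) : ℤ) := hξdvd b b' (by simpa [r] using h2)
        congr 1
        apply Fin.ext
        have hb := b.2
        have hb' := b'.2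
        obtain ⟨c, hc⟩ := h3
        have hc0 : c = 0 := by
          by_contra hne
          rcases lt_or_gt_of_ne hne with hlt | hgt
          · have : (ℓ : ℤ) * c ≤ -(ℓ : ℤ) := by nlinarith
            omega
          · have : (ℓ : ℤ) ≤ (ℓ : ℤ) * c := by nlinarith
            omega
        rw [hc0, mul_zero] at hc
        omega
  have hge : Nat.card (Option (Fin ℓ)) ≤ Module.finrank L₁.F L₂.F :=
    (Nat.card_le_card_of_injective σ hinj).trans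
      (card_algHom_le_finrank L₁.F L₂.F (LaurentSeries K))
  rw [Nat.card_eq_fintype_card, Fintype.card_option, Fintype.card_fin] at hge
  exact le_antisymm hle hge

set_option maxHeartbeats 1600000 in
include hα hβ hαR hβR in
/-- (NS) the norm series identity, generic form:
`(N_α (β f))(x^ℓ) = f(x^(ℓ·ℓ)) · ∏_{b<ℓ} (θ f)(ζ₀^b x)`. -/
theorem dsccj_norm_series_aux (m : ℕ) [NeZero m] (hh : L₂.h = ℓ * m)
    (θ : L₁.F →+* L₁.F) (ξ : ℕ → SL(2, ℤ)) (γ' : SL(2, ℤ)) (hξ : ∀ b, ξ b ∈ L₁.Γ)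
    (hmat : ∀ b : ℕ, Fermat.Agent.S23.utGL ℓ 0 1 * Matrix.SpecialLinearGroup.mapGL ℝ (ξ b)⁻¹ =
      Matrix.SpecialLinearGroup.mapGL ℝ γ' * Fermat.Agent.S23.utGL 1 (b : ℤ) ℓ)
    (hξnot : ∀ b, ξ b ∉ L₂.Γ)
    (hξdvd : ∀ b b' : ℕ, (ξ b)⁻¹ * ξ b' ∈ L₂.Γ → (ℓ : ℤ) ∣ (b : ℤ) - b')
    (hθ : ∀ x : L₁.R, ∃ y : L₁.R, (y : L₁.F) = θ (x : L₁.F) ∧
      γ'⁻¹ • L₁.toHol x = L₁.toHol y)
    (hidx : Nat.card (SL(2, ℤ) ⧸ L₂.Γ) ≤ Nat.card (SL(2, ℤ) ⧸ L₁.Γ) * (ℓ + 1))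
    (ζ₀ : Kˣ) (hζ₀ : ι (ζ₀ : K) = Complex.exp (2 * π * Complex.I / ℓ)) (f : L₁.F) :
    letI := algebraAlong α
    qExpand K ℓ ((Algebra.norm L₁.F (β f) : L₁.F) : LaurentSeries K) =
      qExpand K (ℓ * ℓ) (f : LaurentSeries K) *
        gcjfProd ℓ ζ₀ ((θ f : L₁.F) : LaurentSeries K) := by
  classical
  letI algKL : Algebra L₁.F L₂.F := algebraAlong α
  letI algKΩ : Algebra L₁.F (LaurentSeries K) :=
    ((qExpand K L₂.h).comp (dsccjVal L₁)).toAlgebra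
  -- representatives
  let r : Option (Fin ℓ) → SL(2, ℤ) := fun i => i.elim 1 (fun b => ξ b)
  have hr : ∀ i, r i ∈ L₁.Γ := by
    intro i
    cases i with
    | none => exact one_mem _
    | some b => exact hξ b
  let σ : Option (Fin ℓ) → (L₂.F →ₐ[L₁.F] LaurentSeries K) := fun i =>
    { dsclDegLift L₂ (r i) with
      commutes' := fun f => dsccj_degLift_alpha L₁ L₂ α hα hαR (r i) (hr i) f }
  have hσ : ∀ i y, σ i y = dsclDegLift L₂ (r i) y := fun i y => rfl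
  have hinj : Function.Injective σ := by
    intro i j hij
    have h1 : dsclDegLift L₂ (r i) = dsclDegLift L₂ (r j) := by
      ext y : 1
      rw [← hσ, ← hσ, hij]
    have h2 := dsccj_mem_of_degLift_eq L₂ _ _ h1
    cases i with
    | none =>
      cases j with
      | none => rfl
      | some b =>
        exfalso
        apply hξnot b
        simpa [r] using h2
    | some b =>
      cases j with
      | none =>
        exfalso
        apply hξnot b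
        have h3 : (ξ b)⁻¹ ∈ L₂.Γ := by simpa [r] using h2
        simpa using inv_mem h3
      | some b' =>
        have h3 : (ℓ : ℤ) ∣ ((b : ℕ) : ℤ) - ((b' : ℕ) : ℤ) := hξdvd b b' (by simpa [r] using h2)
        congr 1
        apply Fin.ext
        have hb := b.2
        have hb' := b'.2
        obtain ⟨c, hc⟩ := h3
        have hc0 : c = 0 := by
          by_contra hne
          rcases lt_or_gt_of_ne hne with hlt | hgt
          · have : (ℓ : ℤ) * c ≤ -(ℓ : ℤ) := by nlinarith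
            omega
          · have : (ℓ : ℤ) ≤ (ℓ : ℤ) * c := by nlinarith
            omega
        rw [hc0, mul_zero] at hc
        omega
  have hfinrank : Module.finrank L₁.F L₂.F = ℓ + 1 :=
    dsccj_finrank L₁ L₂ α hα hαR ξ hξ hξnot hξdvd hidx
  haveI : FiniteDimensional L₁.F L₂.F :=
    Module.finite_of_finrank_pos (by rw [hfinrank]; omega)
  haveI : CharZero K := algebraRat.charZero K
  haveI : CharZero L₁.F := charZero_of_injective_algebraMap (algebraMap K L₁.F).injective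
  haveI : Algebra.IsSeparable L₁.F L₂.F := Algebra.IsAlgebraic.isSeparable_of_perfectField
  have hnorm := gcjf_norm_eq_prod σ hinj
    (by rw [Fintype.card_option, Fintype.card_fin, hfinrank]) (β f)
  have hL : algebraMap L₁.F (LaurentSeries K) (Algebra.norm L₁.F (β f)) =
      qExpand K L₂.h ((Algebra.norm L₁.F (β f) : L₁.F) : LaurentSeries K) := rfl
  rw [hL, Fintype.prod_option] at hnorm
  have h0 : σ none (β f) = qExpand K (L₂.h * ℓ) (f : LaurentSeries K) :=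
    dsccj_degLift_beta_one L₁ L₂ β hβ hβR f
  have h1 : ∀ b : Fin ℓ, σ (some b) (β f) =
      qExpand K m (gcjfRot (ζ₀ ^ (b : ℕ)) ((θ f : L₁.F) : LaurentSeries K)) := fun b =>
    dsccj_degLift_beta L₁ L₂ β hβ hβR m hh ζ₀ hζ₀ (ξ b) γ' b (hmat b) θ hθ f
  rw [h0, Finset.prod_congr rfl (fun b _ => h1 b), ← map_prod,
    Fin.prod_univ_eq_prod_range (fun i => gcjfRot (ζ₀ ^ i) ((θ f : L₁.F) : LaurentSeries K)) ℓ]
    at hnorm
  have e1 : qExpand K L₂.h ((Algebra.norm L₁.F (β f) : L₁.F) : LaurentSeries K) =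
      qExpand K m (qExpand K ℓ ((Algebra.norm L₁.F (β f) : L₁.F) : LaurentSeries K)) := by
    rw [qExpand_qExpand]
    exact qExpand_congr (by rw [hh, mul_comm]) _
  have e2 : qExpand K (L₂.h * ℓ) (f : LaurentSeries K) =
      qExpand K m (qExpand K (ℓ * ℓ) (f : LaurentSeries K)) := by
    rw [qExpand_qExpand]
    exact qExpand_congr (by rw [hh]; ring) _
  rw [e1, e2, ← map_mul] at hnorm
  exact qExpand_injective m hnorm

end Norm

section Generic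

variable [IsAlgClosed K]

/-- (NS) the norm series identity, generic form, for level data whose fields are only
PROPOSITIONALLY equal to given intermediate fields `F₁`, `F₂` (all hypotheses on `L₁.R`, `L₂.R` are
stated at the level of Laurent series). -/
theorem dsccj_norm_series_generic {F₁ F₂ : IntermediateField K (LaurentSeries K)}
    (L₁ L₂ : DscLevel K ι) (h₁ : L₁.F = F₁) (h₂ : L₂.F = F₂) {ℓ : ℕ} [NeZero ℓ]
    (α β : F₁ →ₐ[K] F₂)
    (hα : ∀ f : F₁, ((α f : F₂) : LaurentSeries K) = (f : LaurentSeries K))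
    (hβ : ∀ f : F₁, ((β f : F₂) : LaurentSeries K) = qExpand K ℓ (f : LaurentSeries K))
    (hαR : ∀ x : L₁.R, ∃ y : L₂.R,
      ((y : L₂.F) : LaurentSeries K) = ((x : L₁.F) : LaurentSeries K))
    (hβR : ∀ x : L₁.R, ∃ y : L₂.R,
      ((y : L₂.F) : LaurentSeries K) = qExpand K ℓ ((x : L₁.F) : LaurentSeries K))
    (m : ℕ) [NeZero m] (hh : L₂.h = ℓ * m)
    (θ : F₁ →+* F₁) (ξ : ℕ → SL(2, ℤ)) (γ' : SL(2, ℤ)) (hξ : ∀ b, ξ b ∈ L₁.Γ)
    (hmat : ∀ b : ℕ, Fermat.Agent.S23.utGL ℓ 0 1 * Matrix.SpecialLinearGroup.mapGL ℝ (ξ b)⁻¹ =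
      Matrix.SpecialLinearGroup.mapGL ℝ γ' * Fermat.Agent.S23.utGL 1 (b : ℤ) ℓ)
    (hξnot : ∀ b, ξ b ∉ L₂.Γ)
    (hξdvd : ∀ b b' : ℕ, (ξ b)⁻¹ * ξ b' ∈ L₂.Γ → (ℓ : ℤ) ∣ (b : ℤ) - b')
    (hθ : ∀ x : L₁.R, ∃ y : L₁.R, γ'⁻¹ • L₁.toHol x = L₁.toHol y ∧
      ∀ hx : ((x : L₁.F) : LaurentSeries K) ∈ F₁,
        ((y : L₁.F) : LaurentSeries K) =
          ((θ ⟨((x : L₁.F) : LaurentSeries K), hx⟩ : F₁) : LaurentSeries K))
    (hidx : Nat.card (SL(2, ℤ) ⧸ L₂.Γ) ≤ Nat.card (SL(2, ℤ) ⧸ L₁.Γ) * (ℓ + 1))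
    (ζ₀ : Kˣ) (hζ₀ : ι (ζ₀ : K) = Complex.exp (2 * π * Complex.I / ℓ)) (f : F₁) :
    letI := algebraAlong α
    qExpand K ℓ ((Algebra.norm F₁ (β f) : F₁) : LaurentSeries K) =
      qExpand K (ℓ * ℓ) (f : LaurentSeries K) *
        gcjfProd ℓ ζ₀ ((θ f : F₁) : LaurentSeries K) := by
  subst h₁
  subst h₂
  refine dsccj_norm_series_aux L₁ L₂ α β hα hβ ?_ ?_ m hh θ ξ γ' hξ hmat hξnot hξdvd ?_ hidx
    ζ₀ hζ₀ f
  · intro x
    obtain ⟨y, hy⟩ := hαR x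
    have : α (x : L₁.F) = (y : L₂.F) := Subtype.ext (by rw [hα, hy])
    rw [this]
    exact y.2
  · intro x
    obtain ⟨y, hy⟩ := hβR x
    have : β (x : L₁.F) = (y : L₂.F) := Subtype.ext (by rw [hβ, hy])
    rw [this]
    exact y.2
  · intro x
    obtain ⟨y, hy1, hy2⟩ := hθ x
    exact ⟨y, Subtype.ext (hy2 (x : L₁.F).2), hy1⟩

end Generic

end Fermat.Agent.DS
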