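import Mathlib
import Fermat.Agent.G.Conj.Reps
import Fermat.Agent.G.Conj.Series
import Fermat.Agent.S24.CountPsi
import Fermat.Agent.DS.C.Conj.Series
import Fermat.Agent.DS.C.Conj.Main

/-!
# Program DS, package (C), row C5, leaf Conj : (NS) for `X₁(M)` from the level data of row C1c

`dsccj_normSeries_of_levels` : given level data `L₁` (for `dscFieldBar M 1`, group `⊇ Γ₁(M)`) and
`L₂` (for `dscFieldBar M (1 * ℓ)`, group `L₁.Γ ⊓ Γ₀(ℓ)`, cusp width `ℓ m`) with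
`R₁ ⊆ R₂`, `R₁(q^ℓ) ⊆ R₂`, and a ring endomorphism `θ` of `dscFieldBar M 1` through which every
`γ' ∈ Γ₀(M)` with upper left entry `≡ ℓ` acts on `L₁.R` (`θ = ⟨ℓ⟩`), the norm series identity
`DsccjNormSeries M ℓ θ` holds.
-/

set_option autoImplicit false
set_option linter.unusedSectionVars false
set_option linter.unusedVariables false
set_option linter.style.haveILetI false
set_option synthInstance.maxHeartbeats 400000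

noncomputable section

namespace Fermat.Agent.DS

open ModularCurve AlgebraicCurve Fermat.Agent.S24 Fermat.Agent.G UpperHalfPlane
open scoped MatrixGroups Real

local notation "Qb" => AlgebraicClosure ℚ

/-- (L4, `Γ₁`) explicit representatives `ξ_b ∈ Γ₁(M)`, `b ∈ ℕ`, of the nontrivial cosets of
`Γ₁(M) ∩ Γ₀(ℓ)` in `Γ₁(M)`: `ξ_b⁻¹ = (1, b+n; M, M b + ℓ m)`, `γ' = (ℓ, n; M, m) ∈ Γ₀(M)`,
`ℓ m - M n = 1`. -/
theorem dsccj_exists_reps (M ℓ : ℕ) [NeZero M] [NeZero ℓ] (hℓ1 : 1 < ℓ) (hℓM : Nat.Coprime ℓ M) :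
    ∃ (ξ : ℕ → SL(2, ℤ)) (γ' : SL(2, ℤ)), γ' ∈ CongruenceSubgroup.Gamma0 M ∧
      (((γ' 0 0 : ℤ) : ZMod M) = (ℓ : ZMod M)) ∧
      (∀ b, ξ b ∈ CongruenceSubgroup.Gamma1 M) ∧
      (∀ b : ℕ, Fermat.Agent.S23.utGL ℓ 0 1 * Matrix.SpecialLinearGroup.mapGL ℝ (ξ b)⁻¹ =
        Matrix.SpecialLinearGroup.mapGL ℝ γ' * Fermat.Agent.S23.utGL 1 (b : ℤ) ℓ) ∧
      (∀ b, ξ b ∉ CongruenceSubgroup.Gamma0 ℓ) ∧
      (∀ b b' : ℕ, (ξ b)⁻¹ * ξ b' ∈ CongruenceSubgroup.Gamma0 ℓ →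
        (ℓ : ℤ) ∣ (b : ℤ) - b') := by
  obtain ⟨m, n, h⟩ := gcjr_exists_bezout hℓM
  have hM0 : (M : ℤ) ≠ 0 := by exact_mod_cast NeZero.ne M
  have hℓ0 : ℓ ≠ 0 := NeZero.ne ℓ
  have hcop : IsCoprime (ℓ : ℤ) (M : ℤ) := Nat.isCoprime_iff_coprime.mpr hℓM
  have hℓ_not_dvd_one : ¬ (ℓ : ℤ) ∣ 1 := by
    intro hd
    have : ℓ ∣ 1 := by exact_mod_cast hd
    have := Nat.le_of_dvd one_pos this
    omega
  refine ⟨fun b => (gcjrEta M ℓ m n h b)⁻¹, gcjrGamma M ℓ m n h, ?_, ?_, ?_, ?_, ?_, ?_⟩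
  · rw [gcjr_mem_Gamma0_iff]
    simp [gcjrGamma]
  · simp [gcjrGamma]
  · intro b
    apply Subgroup.inv_mem
    rw [CongruenceSubgroup.Gamma1_mem]
    refine ⟨by simp [gcjrEta], ?_, by simp [gcjrEta]⟩
    have h1 : ((gcjrEta M ℓ m n h b) 1 1 : ℤ) = 1 + (M : ℤ) * (b + n) := by
      simp [gcjrEta]
      linear_combination h
    rw [h1]
    simp
  · intro b
    rw [inv_inv]
    apply Matrix.GeneralLinearGroup.ext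
    intro i j
    simp only [Matrix.GeneralLinearGroup.coe_mul, Fermat.Agent.S23.val_utGL hℓ0 one_ne_zero,
      Fermat.Agent.S23.val_utGL one_ne_zero hℓ0, Matrix.mul_apply, Fin.sum_univ_two,
      Fermat.Agent.S23.unstab_mapGL_apply]
    fin_cases i <;> fin_cases j <;> simp [gcjrEta, gcjrGamma] <;> ring
  · intro b hb
    rw [gcjr_mem_Gamma0_iff] at hb
    have h10 : ((gcjrEta M ℓ m n h b)⁻¹ : SL(2, ℤ)) 1 0 = -(M : ℤ) := by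
      rw [Matrix.SpecialLinearGroup.SL2_inv_expl]
      simp [gcjrEta]
    rw [h10] at hb
    have hd : (ℓ : ℤ) ∣ (M : ℤ) * 1 := by
      have := (dvd_neg.mp hb)
      simpa using this
    exact hℓ_not_dvd_one (hcop.dvd_of_dvd_mul_left hd)
  · intro b b' hbb
    rw [inv_inv, gcjr_mem_Gamma0_iff] at hbb
    have h10 : ((gcjrEta M ℓ m n h b) * (gcjrEta M ℓ m n h b')⁻¹ : SL(2, ℤ)) 1 0 =
        (M : ℤ) * ((M : ℤ) * ((b' : ℤ) - b)) := by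
      rw [Matrix.SpecialLinearGroup.SL2_inv_expl]
      simp [gcjrEta, Matrix.mul_apply, Fin.sum_univ_two]
      ring
    rw [h10] at hbb
    have h1 : (ℓ : ℤ) ∣ (M : ℤ) * ((b' : ℤ) - b) := hcop.dvd_of_dvd_mul_left hbb
    have h2 : (ℓ : ℤ) ∣ (b' : ℤ) - b := hcop.dvd_of_dvd_mul_left h1
    have : (b : ℤ) - b' = -((b' : ℤ) - b) := by ring
    rw [this]
    exact (dvd_neg.mpr h2)

/-- `[SL₂(ℤ) : H ⊓ Γ₀(ℓ)] ≤ [SL₂(ℤ) : H] (ℓ + 1)` for a prime `ℓ`. -/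
theorem dsccj_card_quot_inf_le (H : Subgroup SL(2, ℤ)) {ℓ : ℕ} (hℓ : ℓ.Prime) :
    Nat.card (SL(2, ℤ) ⧸ (H ⊓ CongruenceSubgroup.Gamma0 ℓ)) ≤
      Nat.card (SL(2, ℤ) ⧸ H) * (ℓ + 1) := by
  haveI : NeZero ℓ := ⟨hℓ.ne_zero⟩
  have h1 := Subgroup.index_inf_le (H := H) (K := CongruenceSubgroup.Gamma0 ℓ)
  have h2 : (CongruenceSubgroup.Gamma0 ℓ).index = ℓ + 1 := by
    rw [index_Gamma0]
    have := dedekindPsi_prime_pow hℓ (k := 1) one_pos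
    simpa using this
  rw [h2] at h1
  exact h1

/-- (NS) for `X₁(M)` from level data for the levels `(M, 1)` and `(M, ℓ)`; weak form of the
hypotheses on the group of `L₂`: contained in `Γ₀(ℓ)`, index at most `(ℓ + 1) [SL₂(ℤ) : L₁.Γ]`. -/
theorem dsccj_normSeries_of_levels' (M : ℕ) [NeZero M] {ℓ : ℕ} [Fact ℓ.Prime] (hℓM : ¬ ℓ ∣ M)
    (L₁ L₂ : DscLevel Qb iotaBar)
    (h₁ : L₁.F = dscFieldBar M 1) (h₂ : L₂.F = dscFieldBar M (1 * ℓ))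
    (hΓ₁ : CongruenceSubgroup.Gamma1 M ≤ L₁.Γ)
    (hΓ₂ : L₂.Γ ≤ CongruenceSubgroup.Gamma0 ℓ)
    (hidx : Nat.card (SL(2, ℤ) ⧸ L₂.Γ) ≤ Nat.card (SL(2, ℤ) ⧸ L₁.Γ) * (ℓ + 1))
    (m : ℕ) [NeZero m] (hh : L₂.h = ℓ * m)
    (hαR : ∀ x : L₁.R, ∃ y : L₂.R,
      ((y : L₂.F) : LaurentSeries Qb) = ((x : L₁.F) : LaurentSeries Qb))
    (hβR : haveI : NeZero ℓ := ⟨(Fact.out : ℓ.Prime).ne_zero⟩
      ∀ x : L₁.R, ∃ y : L₂.R,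
        ((y : L₂.F) : LaurentSeries Qb) = qExpand Qb ℓ ((x : L₁.F) : LaurentSeries Qb))
    (θ : dscFieldBar M 1 →+* dscFieldBar M 1)
    (hθ : ∀ γ' ∈ CongruenceSubgroup.Gamma0 M, ((γ' 0 0 : ℤ) : ZMod M) = (ℓ : ZMod M) →
      ∀ x : L₁.R, ∃ y : L₁.R, γ'⁻¹ • L₁.toHol x = L₁.toHol y ∧
        ∀ hx : ((x : L₁.F) : LaurentSeries Qb) ∈ dscFieldBar M 1,
          ((y : L₁.F) : LaurentSeries Qb) =
            ((θ ⟨((x : L₁.F) : LaurentSeries Qb), hx⟩ : dscFieldBar M 1) : LaurentSeries Qb)) :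
    haveI : NeZero ℓ := ⟨(Fact.out : ℓ.Prime).ne_zero⟩
    DsccjNormSeries M ℓ θ := by
  haveI : NeZero ℓ := ⟨(Fact.out : ℓ.Prime).ne_zero⟩
  have hℓ : ℓ.Prime := Fact.out
  obtain ⟨ζ₀, hprim, hζ₀⟩ := gcjs_exists_zeta ℓ
  obtain ⟨ξ, γ', hγ', hγ'00, hξ, hmat, hξnot, hξdvd⟩ :=
    dsccj_exists_reps M ℓ hℓ.one_lt ((Nat.Prime.coprime_iff_not_dvd hℓ).2 hℓM)
  refine ⟨ζ₀, hprim, fun f => ?_⟩
  exact dsccj_norm_series_generic L₁ L₂ h₁ h₂ (dscAlphaBar Qb M 1 ℓ) (dscBetaBar Qb M 1 ℓ)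
    (fun g => coe_dscAlphaBar M 1 ℓ g) (fun g => coe_dscBetaBar M 1 ℓ g) hαR hβR m hh θ ξ γ'
    (fun b => hΓ₁ (hξ b)) hmat
    (fun b hb => hξnot b (hΓ₂ hb))
    (fun b b' hbb => hξdvd b b' (hΓ₂ hbb))
    (hθ γ' hγ' hγ'00) hidx ζ₀ hζ₀ f

/-- (NS) for `X₁(M)` from level data for the levels `(M, 1)` and `(M, ℓ)` (row C1c), with
`L₂.Γ = L₁.Γ ⊓ Γ₀(ℓ)`. -/
theorem dsccj_normSeries_of_levels (M : ℕ) [NeZero M] {ℓ : ℕ} [Fact ℓ.Prime] (hℓM : ¬ ℓ ∣ M)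
    (L₁ L₂ : DscLevel Qb iotaBar)
    (h₁ : L₁.F = dscFieldBar M 1) (h₂ : L₂.F = dscFieldBar M (1 * ℓ))
    (hΓ₁ : CongruenceSubgroup.Gamma1 M ≤ L₁.Γ)
    (hΓ₂ : L₂.Γ = L₁.Γ ⊓ CongruenceSubgroup.Gamma0 ℓ)
    (m : ℕ) [NeZero m] (hh : L₂.h = ℓ * m)
    (hαR : ∀ x : L₁.R, ∃ y : L₂.R,
      ((y : L₂.F) : LaurentSeries Qb) = ((x : L₁.F) : LaurentSeries Qb))
    (hβR : haveI : NeZero ℓ := ⟨(Fact.out : ℓ.Prime).ne_zero⟩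
      ∀ x : L₁.R, ∃ y : L₂.R,
        ((y : L₂.F) : LaurentSeries Qb) = qExpand Qb ℓ ((x : L₁.F) : LaurentSeries Qb))
    (θ : dscFieldBar M 1 →+* dscFieldBar M 1)
    (hθ : ∀ γ' ∈ CongruenceSubgroup.Gamma0 M, ((γ' 0 0 : ℤ) : ZMod M) = (ℓ : ZMod M) →
      ∀ x : L₁.R, ∃ y : L₁.R, γ'⁻¹ • L₁.toHol x = L₁.toHol y ∧
        ∀ hx : ((x : L₁.F) : LaurentSeries Qb) ∈ dscFieldBar M 1,
          ((y : L₁.F) : LaurentSeries Qb) =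
            ((θ ⟨((x : L₁.F) : LaurentSeries Qb), hx⟩ : dscFieldBar M 1) : LaurentSeries Qb)) :
    haveI : NeZero ℓ := ⟨(Fact.out : ℓ.Prime).ne_zero⟩
    DsccjNormSeries M ℓ θ := by
  have hℓ : ℓ.Prime := Fact.out
  refine dsccj_normSeries_of_levels' M hℓM L₁ L₂ h₁ h₂ hΓ₁ ?_ ?_ m hh hαR hβR θ hθ
  · rw [hΓ₂]
    exact inf_le_right
  · rw [hΓ₂]
    exact dsccj_card_quot_inf_le L₁.Γ hℓ

end Fermat.Agent.DS
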