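import Mathlib
import Fermat.Agent.DS.C.Br.DiamondC0
import Fermat.Agent.DS.C.Conj.Inst

/-!
# Program DS, package (C), row C5, leaf Conj : (NS) for `X₁(M)` on the REAL bridge of row C1c

`dsccj_normSeries_of_levelP` : the norm series identity `DsccjNormSeries M ℓ ⟨d⟩`, `d ≡ ℓ`, from
* the level datum `dscbrLevel ℚ̄ ι̅ M` of `X₁(M)` (row C1c, `Br/Conj.lean`),
* the diamonds of the bridge (`Br/Diamond.lean`: `dscbr_toHol_diamond`, `Br/DiamondC0.lean`: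
  `dscbr_diamondAut_eq`),
* ANY level datum `L₂` for the level `(M, ℓ)` with group `≤ Γ₀(ℓ)` of index `≤ (ℓ + 1) [SL₂(ℤ) : Γ]`
  (e.g. `Γ ⊓ Γ₀(ℓ)` : `dsccj_card_quot_inf_le`), cusp width `ℓ m`, whose ring contains `R₁` and
  `R₁(q^ℓ)` (row C2, level raising).
-/

set_option autoImplicit false
set_option linter.unusedSectionVars false
set_option linter.unusedVariables false
set_option linter.style.haveILetI false
set_option synthInstance.maxHeartbeats 400000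

noncomputable section

namespace Fermat.Agent.DS

open ModularCurve AlgebraicCurve Fermat.Agent.S24 Fermat.Agent.G UpperHalfPlane
  CongruenceSubgroup
open scoped MatrixGroups Real

local notation "Qb" => AlgebraicClosure ℚ

/-- the lower right entry of `γ⁻¹` is the upper left entry of `γ`. -/
theorem dsccj_inv_apply_one_one (γ : SL(2, ℤ)) : (γ⁻¹ : SL(2, ℤ)) 1 1 = γ 0 0 := by
  rw [Matrix.SpecialLinearGroup.SL2_inv_expl]
  simp

/-- (NS) for `X₁(M)` at a prime `ℓ ∤ M`, twist `⟨d⟩`, `d ≡ ℓ`, from a level datum of level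
`(M, ℓ)`. -/
theorem dsccj_normSeries_of_levelP (M : ℕ) [NeZero M] {ℓ : ℕ} [Fact ℓ.Prime] (hℓM : ¬ ℓ ∣ M)
    (d : (ZMod M)ˣ) (hd : (d : ZMod M) = (ℓ : ZMod M))
    (L₂ : DscLevel Qb iotaBar) (h₂ : L₂.F = dscFieldBar M (1 * ℓ))
    (hΓ₂ : L₂.Γ ≤ Gamma0 ℓ)
    (hidx : Nat.card (SL(2, ℤ) ⧸ L₂.Γ) ≤
      Nat.card (SL(2, ℤ) ⧸ (dscbrLevel Qb iotaBar M).Γ) * (ℓ + 1))
    (m : ℕ) [NeZero m] (hh : L₂.h = ℓ * m)
    (hαR : ∀ x : dscbrRing Qb M, ∃ y : L₂.R,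
      ((y : L₂.F) : LaurentSeries Qb) = ((x : dscbrField Qb M) : LaurentSeries Qb))
    (hβR : haveI : NeZero ℓ := ⟨(Fact.out : ℓ.Prime).ne_zero⟩
      ∀ x : dscbrRing Qb M, ∃ y : L₂.R,
        ((y : L₂.F) : LaurentSeries Qb) =
          qExpand Qb ℓ ((x : dscbrField Qb M) : LaurentSeries Qb)) :
    haveI : NeZero ℓ := ⟨(Fact.out : ℓ.Prime).ne_zero⟩
    DsccjNormSeries M ℓ (dsccjDiamondHom M d) := by
  haveI : NeZero ℓ := ⟨(Fact.out : ℓ.Prime).ne_zero⟩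
  refine dsccj_normSeries_of_levels' M hℓM (dscbrLevel Qb iotaBar M) L₂ rfl h₂
    ((Gamma1_le_dscbrGamma M).trans (dscbrGamma_le_stab Qb iotaBar M)) hΓ₂ hidx m hh hαR hβR
    (dsccjDiamondHom M d) ?_
  intro γ' hγ' hγ'00 x
  have hu : ((d : (ZMod M)ˣ) : ZMod M) = (((γ'⁻¹ : SL(2, ℤ)) 1 1 : ℤ) : ZMod M) := by
    rw [dsccj_inv_apply_one_one, hγ'00, hd]
  obtain ⟨hy, hy2⟩ := dscbr_toHol_diamond Qb iotaBar M γ'⁻¹ (inv_mem hγ') d hu x
  refine ⟨⟨_, hy⟩, hy2.symm, fun hx => ?_⟩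
  show ((dscbrDiamond Qb iotaBar M d (x : dscbrField Qb M) : dscbrField Qb M) : LaurentSeries Qb) = _
  rw [dsccjDiamondHom_apply, dscbr_diamondAut_eq Qb iotaBar M d]

end Fermat.Agent.DS
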