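/-
Program DS (S48), package (C), row C5 — (NS) THE NORM SERIES FOR `X₁(M)`, UNCONDITIONAL (helper14).

`dsccj_normSeries M hℓM d hd : DsccjNormSeries M ℓ (dsccjDiamondHom M d)` for every prime `ℓ ∤ M`
and every unit `d ≡ ℓ mod M` : `N_α(β f)(q^ℓ) = f(q^{ℓ²}) ∏_{i<ℓ} (⟨d⟩ f)(ζ^i q)`.

Instance of `dsccj_normSeries_of_levelP` (Conj/NS.lean) at helper25's level datum
`dscbrLevelP ℚ̄ iotaBar M ℓ` of `X(Γ₁(M) ∩ Γ₀(ℓ))` (Br/LevelP.lean, Lv/Raise.lean).
-/
import Mathlib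
import Fermat.Agent.DS.C.Conj.NS
import Fermat.Agent.DS.C.Br.LevelP

set_option autoImplicit false

noncomputable section

namespace Fermat.Agent.DS

open UpperHalfPlane ModularCurve IntermediateField CongruenceSubgroup Fermat.Agent.S24
  Fermat.Agent.S23
open scoped MatrixGroups Manifold ModularForm Real

section Gen

variable {K : Type} [Field K] [Algebra ℚ K] [IsAlgClosed K] {ι : K →+* ℂ}
  (L : DscLevel K ι) (p : ℕ) [NeZero p] (F' : IntermediateField K (LaurentSeries K))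
  (hF' : F' = IntermediateField.adjoin K (dsclrGenSet L p))

/-- the ring of the raised level contains the ring of `L`. -/
theorem dsccj_raise_alpha (x : L.R) : ∃ y : (dsclRaise L p F' hF').R,
    ((y : (dsclRaise L p F' hF').F) : LaurentSeries K) = ((x : L.F) : LaurentSeries K) :=
  ⟨dsclrIncl hF' x, rfl⟩

/-- the ring of the raised level contains the ring of `L` composed with `q ↦ q^p`. -/
theorem dsccj_raise_beta (x : L.R) : ∃ y : (dsclRaise L p F' hF').R,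
    ((y : (dsclRaise L p F' hF').F) : LaurentSeries K) =
      qExpand K p ((x : L.F) : LaurentSeries K) :=
  ⟨dsclrQExp hF' x, rfl⟩

end Gen

local notation "Qb" => AlgebraicClosure ℚ

/-- (NS) for `X₁(M)`, `ℓ ∤ M`, with the diamond twist `⟨d⟩`, `d ≡ ℓ mod M`. -/
theorem dsccj_normSeries (M : ℕ) [NeZero M] {ℓ : ℕ} [Fact ℓ.Prime] (hℓM : ¬ ℓ ∣ M)
    (d : (ZMod M)ˣ) (hd : (d : ZMod M) = (ℓ : ZMod M)) :
    haveI : NeZero ℓ := ⟨(Fact.out : ℓ.Prime).ne_zero⟩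
    DsccjNormSeries M ℓ (dsccjDiamondHom M d) := by
  haveI : NeZero ℓ := ⟨(Fact.out : ℓ.Prime).ne_zero⟩
  have hp : ℓ.Prime := Fact.out
  have hF' : dscFieldBar M (1 * ℓ) = laurentBaseChange Qb (dscField M ℓ) := by rw [one_mul]
  have hF'' : dscFieldBar M (1 * ℓ) =
      IntermediateField.adjoin Qb (dsclrGenSet (dscbrLevel Qb iotaBar M) ℓ) :=
    hF'.trans (dscbrp_field_eq Qb iotaBar M ℓ hp)
  have hΓ := dscbrLevelP_Γ (K := Qb) (ι := iotaBar) (M := M) (p := ℓ) hp hF' hℓM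
  refine dsccj_normSeries_of_levelP M hℓM d hd
    (dscbrLevelP Qb iotaBar M ℓ hp (dscFieldBar M (1 * ℓ)) hF') rfl ?_ ?_ M ?_ ?_ ?_
  · rw [hΓ]
    exact inf_le_right
  · rw [hΓ]
    exact dsccj_card_quot_inf_le _ hp
  · show M * ℓ = ℓ * M
    exact mul_comm M ℓ
  · exact fun x => dsccj_raise_alpha (dscbrLevel Qb iotaBar M) ℓ (dscFieldBar M (1 * ℓ)) hF'' x
  · exact fun x => dsccj_raise_beta (dscbrLevel Qb iotaBar M) ℓ (dscFieldBar M (1 * ℓ)) hF'' x

/-- (NS) in the UNFOLDED shape of the hypothesis `hNS` of helper28's `dsc_es_of_producers`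
(`EsTor/Field.lean`), sign function `sg = id` (`dsciSg true`): `hNS := dsccj_hNS M`. -/
theorem dsccj_hNS (M : ℕ) [NeZero M] :
    ∀ (p : ℕ) (hp : p.Prime), ¬ p ∣ M → ∀ d : (ZMod M)ˣ, (d : ZMod M) = (p : ZMod M) →
      haveI : NeZero p := ⟨hp.ne_zero⟩
      ∃ ζ₀ : Qbˣ, IsPrimitiveRoot ζ₀ p ∧ ∀ f : dscFieldBar M 1,
        qExpand Qb p ((dscHeckeFun M 1 p f : dscFieldBar M 1) : LaurentSeries Qb) =
          qExpand Qb (p * p) (f : LaurentSeries Qb) *
            Fermat.Agent.G.gcjfProd p ζ₀ ((dscDiamondAut Qb M 1 d f : dscFieldBar M 1) :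
              LaurentSeries Qb) :=
  fun p hp hpM d hd => haveI : Fact p.Prime := ⟨hp⟩; dsccj_normSeries M hpM d hd

end Fermat.Agent.DS
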